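import Fermat.Agent.ThreeRationalCubes.Points
import Mathlib.Algebra.MvPolynomial.Rename
import Mathlib.Analysis.Complex.Basic

/-!
# Density of the rational points on `x³ + y³ + z³ = r`

Modulo `3 t s² = 4 (r - z³) - t³`, a power of `3 t` times any polynomial is `A (t, z) + B (t, z) s`;
both vanish on infinitely many fibres with infinitely many points, so they are zero.
-/

set_option autoImplicit false
set_option linter.style.haveILetI false

noncomputable section

open Polynomial

namespace FA.ThreeRationalCubes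

/-- Evaluation of a polynomial in `t`, then `z`. -/
def evalTZ {K : Type*} [Field K] [CharZero K] (t z : K) : ℚ[X][X] →+* K :=
  eval₂RingHom (eval₂RingHom (algebraMap ℚ K) t) z

theorem evalTZ_rat (t z : ℚ) (H : ℚ[X][X]) :
    evalTZ t z H = (H.map (evalRingHom t)).eval z := by
  have e : evalTZ t z = (evalRingHom z).comp (mapRingHom (evalRingHom t)) := by
    apply Polynomial.ringHom_ext'
    · apply Polynomial.ringHom_ext'
      · exact Subsingleton.elim _ _
      · simp [evalTZ]
    · simp [evalTZ]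
  rw [e]
  rfl

section

variable {K : Type*} [Field K] [CharZero K] (t z : K)

theorem evalTZ_C (a : ℚ) : evalTZ t z (C (C a)) = (a : K) := by simp [evalTZ]

theorem evalTZ_T : evalTZ t z (C X) = t := by simp [evalTZ]

theorem evalTZ_Z : evalTZ t z X = z := by simp [evalTZ]

end

theorem normal_form (r : ℚ) (G : MvPolynomial (Fin 3) ℚ) :
    ∃ (N : ℕ) (A B : ℚ[X][X]), ∀ {K : Type} [Field K] [CharZero K] (t z s : K),
      3 * t * s ^ 2 = 4 * (r : K) - 4 * z ^ 3 - t ^ 3 →
      (3 * t) ^ N * MvPolynomial.eval₂ (Rat.castHom K) ![(t + s) / 2, (t - s) / 2, z] G =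
        evalTZ t z A + evalTZ t z B * s := by
  induction G using MvPolynomial.induction_on with
  | C a =>
    refine ⟨0, C (C a), 0, fun {K} _ _ t z s _ => ?_⟩
    simp [evalTZ_C]
  | add p q hp hq =>
    obtain ⟨N, A, B, hp⟩ := hp
    obtain ⟨M, A', B', hq⟩ := hq
    refine ⟨N + M, (C (C 3) * C X) ^ M * A + (C (C 3) * C X) ^ N * A',
      (C (C 3) * C X) ^ M * B + (C (C 3) * C X) ^ N * B', fun {K} _ _ t z s h => ?_⟩
    simp only [MvPolynomial.eval₂_add, map_add, map_mul, map_pow, evalTZ_C, evalTZ_T,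
      Rat.cast_ofNat]
    rw [pow_add]
    linear_combination (3 * t) ^ M * hp t z s h + (3 * t) ^ N * hq t z s h
  | mul_X p i hp =>
    obtain ⟨N, A, B, hp⟩ := hp
    match i with
    | 0 =>
      refine ⟨N + 1, C (C (1 / 2)) * (C (C 3) * C X ^ 2 * A +
          (C (C 4) * C (C r) - C (C 4) * X ^ 3 - C X ^ 3) * B),
        C (C (1 / 2)) * (C (C 3) * C X ^ 2 * B + C (C 3) * C X * A), fun {K} _ _ t z s h => ?_⟩
      have e := hp t z s h
      simp only [MvPolynomial.eval₂_mul, MvPolynomial.eval₂_X, map_add, map_mul, map_sub, map_pow,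
        evalTZ_C, evalTZ_T, evalTZ_Z]
      push_cast
      simp
      linear_combination (3 * t * (t + s) / 2) * e + (evalTZ t z B / 2) * h
    | 1 =>
      refine ⟨N + 1, C (C (1 / 2)) * (C (C 3) * C X ^ 2 * A -
          (C (C 4) * C (C r) - C (C 4) * X ^ 3 - C X ^ 3) * B),
        C (C (1 / 2)) * (C (C 3) * C X ^ 2 * B - C (C 3) * C X * A), fun {K} _ _ t z s h => ?_⟩
      have e := hp t z s h
      simp only [MvPolynomial.eval₂_mul, MvPolynomial.eval₂_X, map_mul, map_sub, map_pow,
        evalTZ_C, evalTZ_T, evalTZ_Z]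
      push_cast
      simp
      linear_combination (3 * t * (t - s) / 2) * e - (evalTZ t z B / 2) * h
    | 2 =>
      refine ⟨N, X * A, X * B, fun {K} _ _ t z s h => ?_⟩
      have e := hp t z s h
      simp only [MvPolynomial.eval₂_mul, MvPolynomial.eval₂_X, map_mul, evalTZ_Z]
      simp
      linear_combination z * e

theorem eq_zero_of_infinite {H : ℚ[X][X]} {T : Set ℚ} (hT : T.Infinite)
    (h : ∀ t ∈ T, {z : ℚ | evalTZ t z H = 0}.Infinite) : H = 0 := by
  ext1 n
  rw [coeff_zero]
  refine eq_zero_of_infinite_isRoot _ (hT.mono fun t ht => ?_)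
  have h0 : H.map (evalRingHom t) = 0 := eq_zero_of_infinite_isRoot _ ((h t ht).mono fun z hz => by
    show IsRoot _ z
    rw [IsRoot, ← evalTZ_rat]
    exact hz)
  have := congrArg (fun p : ℚ[X] => p.coeff n) h0
  simpa using this

theorem infinite_good_parameters {r : ℚ} (hr : r ≠ 0) :
    {u : ℚ | u ≠ 0 ∧ GoodV (r * u ^ 3)}.Infinite := by
  have hinj : Set.InjOn (fun u : ℚ => r * u ^ 3) Set.univ := fun a _ b _ e =>
    (Odd.strictMono_pow (by decide : Odd 3)).injective (mul_left_cancel₀ hr e)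
  refine (((Set.finite_singleton 0).union
    (finite_not_goodV.preimage (hinj.mono (Set.subset_univ _)))).infinite_compl).mono fun u hu => ?_
  simp only [Set.mem_compl_iff, Set.mem_union, Set.mem_singleton_iff, Set.mem_preimage,
    Set.mem_ofPred_eq, not_or, not_not] at hu
  exact hu

/-- The fibres with infinitely many points. -/
def richFibres (r : ℚ) : Set ℚ :=
  {t : ℚ | t ≠ 0 ∧ {P : ℚ × ℚ × ℚ | P.1 ^ 3 + P.2.1 ^ 3 + P.2.2 ^ 3 = r ∧
    P.1 + P.2.1 = t}.Infinite}

theorem infinite_richFibres {r : ℚ} (hr : r ≠ 0) : (richFibres r).Infinite := by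
  intro hfin
  refine infinite_good_parameters hr ((hfin.biUnion fun c _ => finite_ryleyT hr c).subset ?_)
  rintro u ⟨hu, hg⟩
  refine Set.mem_biUnion (show ryleyT r u ∈ richFibres r from ⟨?_, infinite_fibre hu hg⟩)
    (rfl : ryleyT r u = ryleyT r u)
  exact div_ne_zero (mul_ne_zero (mul_ne_zero (by norm_num) hr) (pow_ne_zero _ hu))
    (denE_pos _).ne'

/-- A polynomial vanishing at the rational points vanishes off the lines `x + y = 0`. -/
theorem vanish_off_plane {r : ℚ} (hr : r ≠ 0) (G : MvPolynomial (Fin 3) ℚ)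
    (hG : ∀ v : Fin 3 → ℚ, v 0 ^ 3 + v 1 ^ 3 + v 2 ^ 3 = r → MvPolynomial.eval v G = 0)
    (v : Fin 3 → ℂ) (hv : v 0 ^ 3 + v 1 ^ 3 + v 2 ^ 3 = (r : ℂ)) (hne : v 0 + v 1 ≠ 0) :
    MvPolynomial.aeval v G = 0 := by
  obtain ⟨N, A, B, hnf⟩ := normal_form r G
  have hfib : ∀ t ∈ richFibres r, {z : ℚ | evalTZ t z A = 0 ∧ evalTZ t z B = 0}.Infinite := by
    rintro t ⟨ht0, ht⟩
    set S := {P : ℚ × ℚ × ℚ | P.1 ^ 3 + P.2.1 ^ 3 + P.2.2 ^ 3 = r ∧ P.1 + P.2.1 = t} with hS
    -- the points with `x = y` are finite in number, and each `z` carries finitely many points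
    have hz : ∀ z : ℚ, {P ∈ S | P.2.2 = z}.Finite := by
      intro z
      refine ((finite_setOfPred_isRoot (p := C (3 * t) * X ^ 2 - C (3 * t ^ 2) * X +
        C (t ^ 3 + z ^ 3 - r)) ?_).image fun x => ((x, t - x, z) : ℚ × ℚ × ℚ)).subset ?_
      · intro e
        have := congrArg (fun p : ℚ[X] => p.coeff 2) e
        simp only [coeff_add, coeff_sub, coeff_C_mul, coeff_X_pow, coeff_X, coeff_C,
          coeff_zero] at this
        norm_num [ht0] at this
      · rintro ⟨x, y, z'⟩ ⟨⟨h₁, h₂⟩, rfl⟩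
        obtain rfl : y = t - x := eq_sub_iff_add_eq'.2 h₂
        refine ⟨x, ?_, rfl⟩
        show IsRoot _ x
        simp at h₁ ⊢
        linear_combination h₁
    intro hfin
    have hbad : {z : ℚ | 4 * r - 4 * z ^ 3 - t ^ 3 = 0}.Finite := by
      refine (finite_setOfPred_isRoot (p := C (4 : ℚ) * X ^ 3 - C (4 * r - t ^ 3)) ?_).subset
        fun z hz => ?_
      · intro e
        have := congrArg (fun p : ℚ[X] => p.coeff 3) e
        simp only [coeff_sub, coeff_C_mul, coeff_X_pow, coeff_C, coeff_zero] at this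
        norm_num at this
      · show IsRoot _ z
        simp only [Set.mem_ofPred_eq] at hz
        simp
        linear_combination -hz
    refine ht (((hfin.union hbad).biUnion fun z _ => hz z).subset ?_)
    rintro ⟨x, y, z⟩ hP
    refine Set.mem_biUnion ?_ ⟨hP, rfl⟩
    obtain ⟨h₁, h₂⟩ := hP
    simp only at h₁ h₂
    by_cases hs : x - y = 0
    · refine Or.inr ?_
      show 4 * r - 4 * z ^ 3 - t ^ 3 = 0
      obtain rfl : y = x := (sub_eq_zero.1 hs).symm
      subst h₂
      linear_combination -4 * h₁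
    · refine Or.inl ?_
      have heq : 3 * t * (x - y) ^ 2 = 4 * r - 4 * z ^ 3 - t ^ 3 := by
        subst h₂
        linear_combination 4 * h₁
      have e₁ := hnf t z (x - y) heq
      have e₂ := hnf t z (-(x - y)) (by rw [neg_sq]; exact heq)
      have z₁ : MvPolynomial.eval₂ (Rat.castHom ℚ)
          ![(t + (x - y)) / 2, (t - (x - y)) / 2, z] G = 0 := by
        rw [Subsingleton.elim (Rat.castHom ℚ) (RingHom.id ℚ)]
        refine hG _ ?_
        subst h₂
        simp
        linear_combination h₁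
      have z₂ : MvPolynomial.eval₂ (Rat.castHom ℚ)
          ![(t + -(x - y)) / 2, (t - -(x - y)) / 2, z] G = 0 := by
        rw [Subsingleton.elim (Rat.castHom ℚ) (RingHom.id ℚ)]
        refine hG _ ?_
        subst h₂
        simp
        linear_combination h₁
      rw [z₁, mul_zero] at e₁
      rw [z₂, mul_zero] at e₂
      refine ⟨by linarith, ?_⟩
      exact (mul_eq_zero.1 (show evalTZ t z B * (x - y) = 0 by linarith)).resolve_right hs
  have hA : A = 0 := eq_zero_of_infinite (infinite_richFibres hr) fun t ht =>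
    (hfib t ht).mono fun z hz => hz.1
  have hB : B = 0 := eq_zero_of_infinite (infinite_richFibres hr) fun t ht =>
    (hfib t ht).mono fun z hz => hz.2
  have e := hnf (v 0 + v 1) (v 2) (v 0 - v 1) (by linear_combination 4 * hv)
  have ev : (![(v 0 + v 1 + (v 0 - v 1)) / 2, (v 0 + v 1 - (v 0 - v 1)) / 2, v 2] :
      Fin 3 → ℂ) = v := by
    funext i; fin_cases i <;> simp
  rw [ev, hA, hB, map_zero, zero_mul, add_zero] at e
  rw [MvPolynomial.aeval_def, Subsingleton.elim (algebraMap ℚ ℂ) (Rat.castHom ℂ)]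
  exact (mul_eq_zero.1 e).resolve_left (pow_ne_zero _ (mul_ne_zero (by norm_num) hne))

/-- **Density**: a polynomial vanishing at all rational points vanishes at all complex points. -/
theorem cubes_vanish {r : ℚ} (hr : r ≠ 0) (G : MvPolynomial (Fin 3) ℚ)
    (hG : ∀ v : Fin 3 → ℚ, v 0 ^ 3 + v 1 ^ 3 + v 2 ^ 3 = r → MvPolynomial.eval v G = 0)
    (v : Fin 3 → ℂ) (hv : v 0 ^ 3 + v 1 ^ 3 + v 2 ^ 3 = (r : ℂ)) :
    MvPolynomial.aeval v G = 0 := by
  have perm : ∀ σ : Equiv.Perm (Fin 3), σ.symm = σ → v (σ 0) + v (σ 1) ≠ 0 →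
      MvPolynomial.aeval v G = 0 := by
    intro σ hσ hne
    have hsum : ∀ {K : Type} [CommRing K] (w : Fin 3 → K),
        w (σ 0) ^ 3 + w (σ 1) ^ 3 + w (σ 2) ^ 3 = w 0 ^ 3 + w 1 ^ 3 + w 2 ^ 3 := by
      intro K _ w
      have := Equiv.sum_comp σ (fun i => w i ^ 3)
      simpa [Fin.sum_univ_three] using this
    have h := vanish_off_plane hr (MvPolynomial.rename σ G) (fun w hw => by
      rw [MvPolynomial.eval_rename]
      exact hG _ ((hsum w).trans hw)) (v ∘ σ) ((hsum v).trans hv) hne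
    rw [MvPolynomial.aeval_rename] at h
    have e : (v ∘ σ) ∘ σ = v := by
      funext i
      simp only [Function.comp_apply]
      conv_lhs => rw [show σ (σ i) = i by
        conv_lhs => arg 1; rw [← hσ]
        exact σ.symm_apply_apply i]
    rwa [e] at h
  by_cases h01 : v 0 + v 1 = 0
  swap
  · exact vanish_off_plane hr G hG v hv h01
  by_cases h02 : v 0 + v 2 = 0
  swap
  · exact perm (Equiv.swap 1 2) (Equiv.symm_swap _ _) (by simpa [Equiv.swap_apply_def] using h02)
  by_cases h12 : v 2 + v 1 = 0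
  swap
  · exact perm (Equiv.swap 0 2) (Equiv.symm_swap _ _) (by simpa [Equiv.swap_apply_def] using h12)
  exfalso
  have h0 : v 0 = 0 := by linear_combination (h01 + h02 - h12) / 2
  have h1 : v 1 = 0 := by linear_combination h01 - h0
  have h2 : v 2 = 0 := by linear_combination h02 - h0
  rw [h0, h1, h2] at hv
  exact hr (by exact_mod_cast (show ((r : ℂ)) = ((0 : ℚ) : ℂ) by simpa using hv.symm))

/-- **Every positive rational is a sum of three positive rational cubes in infinitely many
ways.** -/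
theorem positive_infinite {r : ℚ} (hr : 0 < r) :
    {P : ℚ × ℚ × ℚ | 0 < P.1 ∧ 0 < P.2.1 ∧ 0 < P.2.2 ∧
      P.1 ^ 3 + P.2.1 ^ 3 + P.2.2 ^ 3 = r}.Infinite := by
  obtain ⟨a, ha, ha1, ha2⟩ := exists_rat_pow_btwn (n := 3) three_ne_zero
    (show (9 / r : ℚ) < 12 / r by gcongr; norm_num) (by positivity)
  obtain ⟨b, hb, hb1, hb2⟩ := exists_rat_pow_btwn (n := 3) three_ne_zero
    (show (12 / r : ℚ) < 16 / r by gcongr; norm_num) (by positivity)
  simp only [Rat.cast_id] at *
  have hab : a < b := lt_of_pow_lt_pow_left₀ 3 hb.le (ha2.trans hb1)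
  intro hfin
  refine Set.Ioo_infinite hab ((hfin.biUnion fun P _ =>
    finite_ryleyT hr.ne' (P.1 + P.2.1)).subset ?_)
  intro u hu
  have hu0 : 0 < u := ha.trans hu.1
  have v1 : 9 < r * u ^ 3 := by
    have := pow_lt_pow_left₀ hu.1 ha.le three_ne_zero
    rw [div_lt_iff₀ hr] at ha1
    nlinarith
  have v2 : r * u ^ 3 < 16 := by
    have := pow_lt_pow_left₀ hu.2 hu0.le three_ne_zero
    rw [lt_div_iff₀ hr] at hb2
    nlinarith
  refine Set.mem_biUnion (x := ryley r u) ⟨?_, ?_, ?_, ryley_eq r hu0.ne'⟩ ?_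
  · exact div_pos (by linarith) (by linarith)
  · refine div_pos ?_ (mul_pos (by linarith) (denE_pos _))
    set v := r * u ^ 3
    nlinarith [mul_pos (sub_pos.2 v1) (sub_pos.2 v2),
      mul_pos (mul_pos (sub_pos.2 v1) (sub_pos.2 v2)) (show (0 : ℚ) < v by linarith)]
  · exact div_pos (by nlinarith) (mul_pos hu0 (denE_pos _))
  · exact (ryley_sum r hu0.ne').symm

end FA.ThreeRationalCubes
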