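import Fermat.Agent.MordellCurve.Torsion
import Mathlib.Algebra.Polynomial.Roots
import Mathlib.Algebra.Order.Archimedean.Basic

/-!
# Ryley's points on `x³ + y³ + z³ = r` and the fibres `x + y = t`

With `v = r u³` and `E = v² + 9 v + 81` the point is `x = (v - 9) / (9 u)`,
`y = (729 + 243 v - v³) / (9 u E)`, `z = 3 v (v + 9) / (u E)`; it lies on the fibre
`t = 27 v / (u E)`,
which is the curve `Y² = X³ + 432 t³ (4 r - t³)` by `X = -12 t z`, `Y = 36 t² (x - y)`. It is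
torsion there only for finitely many `v`.
-/

set_option autoImplicit false
set_option linter.style.haveILetI false

noncomputable section

open WeierstrassCurve
open FA.MordellCurve (mordCurve nonsingular_mordCurve natCard_torsion_dvd_six two_smul_iff
  three_smul_iff negY_mordCurve)

namespace FA.ThreeRationalCubes

/-- A point on `y² = x³ + k` off the torsion loci gives infinitely many points. -/
theorem infinite_mordell {k x y : ℚ} (hk : k ≠ 0) (hy : y ≠ 0) (h : y ^ 2 = x ^ 3 + k)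
    (h₁ : x * (x ^ 3 - 8 * k) ≠ 0) (h₂ : (x * (x ^ 3 - 8 * k)) ^ 3 + 256 * k * y ^ 6 ≠ 0) :
    {P : ℚ × ℚ | P.2 ^ 2 = P.1 ^ 3 + k}.Infinite := by
  intro hfin
  set D : ℚ := (k.den : ℚ) with hD
  have hD0 : D ≠ 0 := by rw [hD]; exact_mod_cast k.den_nz
  set n : ℤ := k.num * (k.den : ℤ) ^ 5 with hn
  have hnk : (n : ℚ) = k * D ^ 6 := by
    rw [hn, hD]; push_cast; rw [← Rat.mul_den_eq_num k]; ring
  have hn0 : n ≠ 0 := fun e => by
    rw [e, Int.cast_zero] at hnk; exact mul_ne_zero hk (pow_ne_zero _ hD0) hnk.symm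
  have he : (y * D ^ 3) ^ 2 = (x * D ^ 2) ^ 3 + (n : ℚ) := by
    rw [hnk]; linear_combination D ^ 6 * h
  set P : (mordCurve n).toAffine.Point := .some _ _ (nonsingular_mordCurve hn0 he) with hP
  haveI : Finite (mordCurve n).toAffine.Point := by
    haveI := hfin.to_subtype
    have key : ∀ a b : ℚ, (mordCurve n).toAffine.Nonsingular a b →
        (a / D ^ 2, b / D ^ 3) ∈ {P : ℚ × ℚ | P.2 ^ 2 = P.1 ^ 3 + k} := by
      intro a b hab
      have e := (Affine.equation_iff a b).1 hab.1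
      simp at e
      rw [hnk] at e
      show (b / D ^ 3) ^ 2 = (a / D ^ 2) ^ 3 + k
      field_simp
      linear_combination e
    refine Finite.of_injective (β := Option {P : ℚ × ℚ | P.2 ^ 2 = P.1 ^ 3 + k})
      (fun Q => match Q with
      | .zero => none
      | .some a b hab => Option.some ⟨_, key a b hab⟩) ?_
    rintro (_ | ⟨a, b, hab⟩) (_ | ⟨a', b', hab'⟩) e <;> simp at e
    · rfl
    · simp [hD0] at e
      obtain ⟨rfl, rfl⟩ := e
      rfl
  have h6 : 6 • P = 0 := by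
    obtain ⟨-, hdvd⟩ := natCard_torsion_dvd_six hn0
    have hmem : P ∈ AddCommGroup.torsion (mordCurve n).toAffine.Point := isOfFinAddOrder_of_finite P
    have h0 : Nat.card (AddCommGroup.torsion (mordCurve n).toAffine.Point) • P = 0 :=
      congrArg Subtype.val (card_nsmul_eq_zero' (x := (⟨P, hmem⟩ :
        AddCommGroup.torsion (mordCurve n).toAffine.Point)))
    obtain ⟨c, hc⟩ := hdvd
    rw [hc, mul_nsmul, h0, nsmul_zero]
  have hy' : y * D ^ 3 ≠ 0 := mul_ne_zero hy (pow_ne_zero _ hD0)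
  have hne : y * D ^ 3 ≠ (mordCurve n).toAffine.negY (x * D ^ 2) (y * D ^ 3) := by
    rw [negY_mordCurve]; exact fun e => hy' (by linarith)
  rw [show (6 : ℕ) = 2 * 3 by norm_num, mul_nsmul, hP, two_nsmul,
    Affine.Point.add_self_of_Y_ne hne, three_smul_iff] at h6
  have hl : (mordCurve n).toAffine.slope (x * D ^ 2) (x * D ^ 2) (y * D ^ 3) (y * D ^ 3) =
      3 * x ^ 2 * D / (2 * y) := by
    rw [Affine.slope_of_Y_ne rfl hne, negY_mordCurve]
    simp
    field_simp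
    ring
  have hx2 : (mordCurve n).toAffine.addX (x * D ^ 2) (x * D ^ 2) (3 * x ^ 2 * D / (2 * y)) =
      D ^ 2 * (x * (x ^ 3 - 8 * k)) / (4 * y ^ 2) := by
    simp [Affine.addX]
    field_simp
    linear_combination -32 * x * h
  rw [hl, hx2] at h6
  rcases mul_eq_zero.1 h6.2 with e | e
  · exact div_ne_zero (mul_ne_zero (pow_ne_zero _ hD0) h₁)
      (mul_ne_zero (by norm_num) (pow_ne_zero _ hy)) e
  · refine h₂ ?_
    rw [hnk] at e
    field_simp at e
    exact (mul_eq_zero.1 (show D ^ 6 * ((x * (x ^ 3 - 8 * k)) ^ 3 + 256 * k * y ^ 6) = 0 by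
      linear_combination e)).resolve_left (pow_ne_zero _ hD0)

/-- `E = v² + 9 v + 81`. -/
def denE (v : ℚ) : ℚ := v ^ 2 + 9 * v + 81

theorem denE_pos (v : ℚ) : 0 < denE v := by
  unfold denE; nlinarith [sq_nonneg (2 * v + 9)]

/-- Ryley's point. -/
def ryley (r u : ℚ) : ℚ × ℚ × ℚ :=
  ((r * u ^ 3 - 9) / (9 * u),
    (729 + 243 * (r * u ^ 3) - (r * u ^ 3) ^ 3) / (9 * u * denE (r * u ^ 3)),
    3 * (r * u ^ 3) * (r * u ^ 3 + 9) / (u * denE (r * u ^ 3)))

/-- The fibre through Ryley's point. -/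
def ryleyT (r u : ℚ) : ℚ := 27 * r * u ^ 2 / denE (r * u ^ 3)

theorem ryley_eq (r : ℚ) {u : ℚ} (hu : u ≠ 0) :
    (ryley r u).1 ^ 3 + (ryley r u).2.1 ^ 3 + (ryley r u).2.2 ^ 3 = r := by
  have := (denE_pos (r * u ^ 3)).ne'
  simp only [ryley]
  field_simp
  simp only [denE]
  ring

theorem ryley_sum (r : ℚ) {u : ℚ} (hu : u ≠ 0) :
    (ryley r u).1 + (ryley r u).2.1 = ryleyT r u := by
  have := (denE_pos (r * u ^ 3)).ne'
  simp only [ryley, ryleyT]
  field_simp
  simp only [denE]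
  ring

theorem finite_ryleyT {r : ℚ} (hr : r ≠ 0) (c : ℚ) : {u : ℚ | ryleyT r u = c}.Finite := by
  by_cases hc : c = 0
  · refine (Set.finite_singleton 0).subset fun u hu => ?_
    simp only [Set.mem_ofPred_eq, ryleyT, hc, div_eq_zero_iff, mul_eq_zero] at hu
    rcases hu with h | h
    · simpa [hr] using h
    · exact absurd h (denE_pos _).ne'
  · refine (Polynomial.finite_setOfPred_isRoot (p :=
      Polynomial.C c * ((Polynomial.C r * Polynomial.X ^ 3) ^ 2 +
        Polynomial.C 9 * (Polynomial.C r * Polynomial.X ^ 3) + Polynomial.C 81) -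
        Polynomial.C (27 * r) * Polynomial.X ^ 2) ?_).subset fun u hu => ?_
    · intro e
      have := congrArg (Polynomial.eval 0) e
      simp [hc] at this
    · show Polynomial.IsRoot _ u
      simp only [Set.mem_ofPred_eq, ryleyT] at hu
      rw [div_eq_iff (denE_pos _).ne', denE] at hu
      simp
      linear_combination -hu

/-- The parameters at which Ryley's point has infinite order. -/
def GoodV (v : ℚ) : Prop :=
  let A := -108 * v ^ 2 * (v + 9) ^ 3
  let B := 4 * denE v ^ 3 - 19683 * v ^ 2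
  v ≠ 0 ∧ v + 9 ≠ 0 ∧ B ≠ 0 ∧ 2 * v ^ 3 - 243 * v - 1458 ≠ 0 ∧ A - 8 * B ≠ 0 ∧
    A * (A - 8 * B) ^ 3 + 256 * B * (A + B) ^ 3 ≠ 0

open Polynomial in
theorem finite_not_goodV : {v : ℚ | ¬GoodV v}.Finite := by
  let A : ℚ[X] := C (-108) * X ^ 2 * (X + C 9) ^ 3
  let B : ℚ[X] := C 4 * (X ^ 2 + C 9 * X + C 81) ^ 3 - C 19683 * X ^ 2
  let p : ℚ[X] := X * (X + C 9) * B * (C 2 * X ^ 3 - C 243 * X - C 1458) * (A - C 8 * B) *
    (A * (A - C 8 * B) ^ 3 + C 256 * B * (A + B) ^ 3)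
  have hne : ∀ q : ℚ[X], q.eval 0 ≠ 0 → q ≠ 0 := fun q h e => h (by simp [e])
  refine (finite_setOfPred_isRoot (p := p) ?_).subset fun v hv => ?_
  · refine mul_ne_zero (mul_ne_zero (mul_ne_zero (mul_ne_zero (mul_ne_zero X_ne_zero ?_) ?_) ?_) ?_)
      ?_ <;> exact hne _ (by norm_num [A, B])
  · show IsRoot p v
    simp only [Set.mem_ofPred_eq, GoodV, not_and_or, not_not, denE] at hv
    simp only [IsRoot, p, A, B, eval_mul, eval_add, eval_sub, eval_pow, eval_X, eval_C,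
      mul_eq_zero]
    tauto

/-- **A good parameter gives a fibre with infinitely many points.** -/
theorem infinite_fibre {r u : ℚ} (hu : u ≠ 0) (hg : GoodV (r * u ^ 3)) :
    {P : ℚ × ℚ × ℚ | P.1 ^ 3 + P.2.1 ^ 3 + P.2.2 ^ 3 = r ∧
      P.1 + P.2.1 = ryleyT r u}.Infinite := by
  simp only [GoodV] at hg
  obtain ⟨hv, hv9, hB, hS, hAB, hH⟩ := hg
  have hr : r ≠ 0 := left_ne_zero_of_mul hv
  have hE := (denE_pos (r * u ^ 3)).ne'
  have hxyz := ryley_eq r hu
  have hsum := ryley_sum r hu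
  set t := ryleyT r u with ht
  have ht0 : t ≠ 0 := by
    rw [ht, ryleyT]
    exact div_ne_zero (mul_ne_zero (mul_ne_zero (by norm_num) hr) (pow_ne_zero _ hu)) hE
  set v := r * u ^ 3 with hvdef
  set E := denE v with hEdef
  set A := -108 * v ^ 2 * (v + 9) ^ 3 with hA
  set B := 4 * E ^ 3 - 19683 * v ^ 2 with hBdef
  set z := (ryley r u).2.2 with hz
  set s := (ryley r u).1 - (ryley r u).2.1 with hs
  set k := 432 * t ^ 3 * (4 * r - t ^ 3) with hk
  set c := 432 * t ^ 3 * r / E ^ 3 with hc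
  have hc0 : c ≠ 0 := div_ne_zero (mul_ne_zero (mul_ne_zero (by norm_num) (pow_ne_zero _ ht0)) hr)
    (pow_ne_zero _ hE)
  have ekB : k = c * B := by
    rw [hk, hc, hBdef, show 4 * r - t ^ 3 = r * (4 * E ^ 3 - 19683 * v ^ 2) / E ^ 3 by
      simp only [ht, ryleyT, ← hvdef, ← hEdef]; field_simp; rw [hvdef]; ring]
    field_simp
  have eA : (-12 * t * z) ^ 3 = c * A := by
    rw [hc, hA, show (-12 * t * z) ^ 3 = -1728 * t ^ 3 * z ^ 3 by ring,
      show z ^ 3 = 27 * r * v ^ 2 * (v + 9) ^ 3 / E ^ 3 by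
        simp only [hz, ryley, ← hvdef, ← hEdef]; field_simp; rw [hvdef]; ring]
    field_simp
    ring
  have hcurve : (36 * t ^ 2 * s) ^ 2 = (-12 * t * z) ^ 3 + k := by
    rw [hk, hs]
    linear_combination 1728 * t ^ 3 * hxyz - (432 * t ^ 3) *
      (((ryley r u).1 + (ryley r u).2.1) ^ 2 + ((ryley r u).1 + (ryley r u).2.1) * t + t ^ 2 +
        3 * ((ryley r u).1 - (ryley r u).2.1) ^ 2) * hsum
  have hs0 : s ≠ 0 := by
    have : s * (9 * u * E) = 2 * v ^ 3 - 243 * v - 1458 := by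
      simp only [hs, ryley, ← hvdef, ← hEdef]; field_simp; simp only [hEdef, denE]; ring
    exact left_ne_zero_of_mul (this.trans_ne hS)
  have hY : 36 * t ^ 2 * s ≠ 0 := mul_ne_zero (mul_ne_zero (by norm_num) (pow_ne_zero _ ht0)) hs0
  have hX : -12 * t * z ≠ 0 := by
    intro e
    rw [e, zero_pow three_ne_zero, eq_comm, mul_eq_zero, or_iff_right hc0, hA] at eA
    exact mul_ne_zero (mul_ne_zero (by norm_num) (pow_ne_zero _ hv)) (pow_ne_zero _ hv9) eA
  have hinf := infinite_mordell (k := k) (by rw [ekB]; exact mul_ne_zero hc0 hB) hY hcurve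
    (mul_ne_zero hX (by
      rw [eA, ekB, show c * A - 8 * (c * B) = c * (A - 8 * B) by ring]
      exact mul_ne_zero hc0 hAB))
    (by
      rw [show ((-12 * t * z) * ((-12 * t * z) ^ 3 - 8 * k)) ^ 3 +
          256 * k * (36 * t ^ 2 * s) ^ 6 = (-12 * t * z) ^ 3 * ((-12 * t * z) ^ 3 - 8 * k) ^ 3 +
          256 * k * ((36 * t ^ 2 * s) ^ 2) ^ 3 by ring, hcurve, eA, ekB,
        show c * A * (c * A - 8 * (c * B)) ^ 3 + 256 * (c * B) * (c * A + c * B) ^ 3 =
          c ^ 4 * (A * (A - 8 * B) ^ 3 + 256 * B * (A + B) ^ 3) by ring]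
      exact mul_ne_zero (pow_ne_zero _ hc0) hH)
  refine Set.infinite_of_injOn_mapsTo (f := fun Q : ℚ × ℚ =>
    ((t + Q.2 / (36 * t ^ 2)) / 2, (t - Q.2 / (36 * t ^ 2)) / 2, -Q.1 / (12 * t))) ?_ ?_ hinf
  · intro P _ Q _ e
    simp only [Prod.mk.injEq] at e
    obtain ⟨e₁, -, e₃⟩ := e
    field_simp at e₁ e₃
    exact Prod.ext (by linarith) (by linarith)
  · rintro ⟨X, Y⟩ hQ
    simp only [Set.mem_ofPred_eq] at hQ ⊢
    refine ⟨?_, by ring⟩
    rw [hk] at hQ
    field_simp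
    linear_combination 373248 * t ^ 3 * hQ

end FA.ThreeRationalCubes
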